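/-
S12 / FI / Geom (helper119): assembly of the contract `GeomStmt` of `S12/FI/Defs.lean` from
* (H)    the formal part: `s^mul (1 - τ f) = 1 - τ s^add f` (this directory),
* (GEO)  the contract `GeoStmt` below (blocks V, D, C; helper228),
* (CHART), (CORE)  `twoChart`, `core''` (helper130).
This file: the definitions and the contract `GeoStmt`.
-/
import Fermat.Agent.S12.FI.Defs
import Fermat.Agent.S12.FI.Chart.Defs
import Fermat.Agent.S12.FI.Core.Near
import Fermat.Agent.GAL.E.Defs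

set_option autoImplicit false

noncomputable section

namespace Fermat.Agent.S12.FI

open ModularCurve AlgebraicCurve CuspForm
open Fermat.Agent.S24 Fermat.Agent.S27 Fermat.Agent.S37 Fermat.Agent.S15 Fermat.Agent.S15.A
open Fermat.Agent.GAL.E

section Formal

variable {K : Type*} [Field K] (p : ℕ) [NeZero p]

theorem bddBelow_support_uq (f : LaurentSeries K) :
    BddBelow (Function.support fun n : ℤ => f.coeff ((p : ℤ) * n)) := by
  refine ⟨min f.order 0, fun n hn => ?_⟩
  have h1 : f.order ≤ (p : ℤ) * n := HahnSeries.order_le_of_coeff_ne_zero hn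
  rcases le_or_gt 0 n with h | h
  · exact (min_le_right _ _).trans h
  · refine (min_le_left _ _).trans (h1.trans ?_)
    have hp' : (1 : ℤ) ≤ p := by exact_mod_cast NeZero.pos p
    nlinarith

/-- The operator `U_p : ∑ a_n q^n ↦ ∑ a_{pn} q^n` on Laurent series. -/
def uq : LaurentSeries K →+ LaurentSeries K where
  toFun f := HahnSeries.ofSuppBddBelow (fun n : ℤ => f.coeff ((p : ℤ) * n)) (bddBelow_support_uq p f)
  map_zero' := by
    ext n
    rfl
  map_add' f g := by
    ext n
    rfl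

@[simp] theorem uq_coeff (f : LaurentSeries K) (n : ℤ) : (uq p f).coeff n = f.coeff ((p : ℤ) * n) :=
  rfl

/-- The additive Hecke operator (trace of the Hecke correspondence) on `q`-expansions of functions:
`f ↦ f(q^p) + ∑_b f(ζ^b q^(1/p)) = V_p f + p U_p f`. -/
def tLs : Module.End ℤ (LaurentSeries K) :=
  ((qExpand K p : LaurentSeries K →+* LaurentSeries K) : LaurentSeries K →+ LaurentSeries K).toIntLinearMap
    + (p : ℤ) • (uq p).toIntLinearMap

theorem tLs_apply (f : LaurentSeries K) : tLs p f = qExpand K p f + (p : ℤ) • uq p f := rfl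

end Formal

variable (N : ℕ) [Fact N.Prime]

instance neZero_pr (q : Pr N) : NeZero (q.1 : ℕ) := ⟨q.1.2.ne_zero⟩

/-- The multiplicative Hecke operator on the units of `FN N`, in additive notation. -/
def tU (q : Pr N) : Module.End ℤ (Additive (FN N)ˣ) :=
  (MonoidHom.toAdditive (heckeU N (q.1 : ℕ))).toIntLinearMap

/-- The action of the formal Hecke polynomials on the units of `FN N` (multiplicative operators). -/
def evU : HH N →ₐ[ℤ] Module.End ℤ (Additive (FN N)ˣ) := FreeAlgebra.lift ℤ (tU N)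

/-- The action of the formal Hecke polynomials on `q`-expansions (additive operators). -/
def evLs : HH N →ₐ[ℤ] Module.End ℤ (LaurentSeries Kbar) :=
  FreeAlgebra.lift ℤ fun q : Pr N => tLs (K := Kbar) (q.1 : ℕ)

/-- `ψ = s₁^add(j) + s₂^add(j_N)`. -/
def psi (s₁ s₂ : HH N) : LaurentSeries Kbar := evLs N s₁ (Jser 1) + evLs N s₂ (Jser N)

/-- `S₀ = s₁^mul(u) s₂^mul(v)`. -/
def S0 (s₁ s₂ : HH N) (u v : (FN N)ˣ) : (FN N)ˣ :=
  Additive.toMul (evU N s₁ (Additive.ofMul u) + evU N s₂ (Additive.ofMul v))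

/-- **GEO** (blocks V, D, C; helper228).  `u = 1 - τ j`, `v = 1 - τ j_N`, `τ = 1 / j(x)`. -/
def GeoStmt : Prop :=
  ∀ l : ℕ, l.Prime → l ≠ N → ∀ A : ValuationSubring Kbar, A.LiesOverPrime l →
    ∀ x : Place Kbar (FN N), 0 ≤ x.ord (jF N) → NearInf N A x →
      ∀ (s₁ s₂ : HH N) (M : ℕ), 0 < M → M • Theta N s₁ s₂ (cls (pt x - pt (cInf N))) = 0 →
        ∀ (τ : Kbar) (u v : (FN N)ˣ), τ * val x (jF N) = 1 →
          (u : FN N) = 1 - algebraMap Kbar (FN N) τ * jF N →
          (v : FN N) = 1 - algebraMap Kbar (FN N) τ * jN N →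
          ∃ X P X' P' Z : LaurentSeries Kbar, X ∈ Rinf N ∧ P ∈ Rinf N ∧ X' ∈ Rzero N ∧
            P' ∈ Rzero N ∧ Z ∈ Rzero N ∧ Lt A 1 (P - 1) ∧ Lt A 1 (P' - 1) ∧ Lt A 1 (Z * X' - 1) ∧
            X * X' = toL N ((S0 N s₁ s₂ u v : (FN N)ˣ) : FN N) ^ M * (P * P')

end Fermat.Agent.S12.FI

end
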