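/-
S12 / FI / Geom (helper119): block (H), formal part.  Laurent series over a field `K` containing a
primitive `p`-th root of unity `ζ`.
* `sum_twist`      : `∑_b f(ζ^b q) = p (U_p f)(q^p)`
* `qExpand_tLs`    : `(T^add f)(q^p) = f(q^(p²)) + ∑_b f(ζ^b q)`
* `piM`, `tMs`     : `Π f = f(q^(p²)) ∏_b f(ζ^b q) = (T^mul f)(q^p)`
* `Exp1.tMs`       : `f = 1 - τ ψ  ⟹  T^mul f = 1 - τ T^add ψ`  (modulo `τ 𝔪`)
-/
import Fermat.Agent.S12.FI.Geom.Defs
import Fermat.Agent.S24.B.Laurent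

set_option autoImplicit false

noncomputable section

namespace Fermat.Agent.S12.FI

open ModularCurve Fermat.Agent.S24.B
open HahnSeries (C)

variable {K : Type*} [Field K] (p : ℕ) [NeZero p] {ζ : Kˣ}

omit [NeZero p] in
theorem zpow_eq_one_of_dvd (hζ : IsPrimitiveRoot ζ p) {n : ℤ} (h : (p : ℤ) ∣ n) : ζ ^ n = 1 :=
  (hζ.zpow_eq_one_iff_dvd n).2 h

omit [NeZero p] in
theorem sum_pow_zpow (hζ : IsPrimitiveRoot ζ p) (n : ℤ) :
    ∑ b ∈ Finset.range p, (((ζ ^ b) ^ n : Kˣ) : K) = if (p : ℤ) ∣ n then (p : K) else 0 := by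
  have e : ∀ b : ℕ, (((ζ ^ b) ^ n : Kˣ) : K) = ((ζ ^ n : Kˣ) : K) ^ b := by
    intro b
    rw [← Units.val_pow_eq_pow_val, ← zpow_natCast, ← zpow_natCast, ← zpow_mul, ← zpow_mul,
      mul_comm]
  simp only [e]
  split_ifs with h
  · rw [zpow_eq_one_of_dvd p hζ h]
    simp
  · have h1 : ((ζ ^ n : Kˣ) : K) ≠ 1 := by
      intro h2
      exact h ((hζ.zpow_eq_one_iff_dvd n).1 (Units.ext h2))
    have h2 : ((ζ ^ n : Kˣ) : K) ^ p = 1 := by
      rw [← Units.val_pow_eq_pow_val, ← zpow_natCast, ← zpow_mul, mul_comm, zpow_mul, zpow_natCast,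
        hζ.pow_eq_one, one_zpow, Units.val_one]
    have h3 := mul_neg_geom_sum ((ζ ^ n : Kˣ) : K) p
    rw [h2, sub_self] at h3
    exact (mul_eq_zero.1 h3).resolve_left (sub_ne_zero.2 h1.symm)

theorem sum_twist (hζ : IsPrimitiveRoot ζ p) (f : LaurentSeries K) :
    ∑ b ∈ Finset.range p, twist (ζ ^ b) f = qExpand K p ((p : ℤ) • uq p f) := by
  ext n
  rw [HahnSeries.coeff_sum]
  simp only [twist_coeff]
  rw [← Finset.sum_mul, sum_pow_zpow p hζ]
  split_ifs with h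
  · obtain ⟨m, rfl⟩ := h
    rw [qExpand_coeff_mul, HahnSeries.coeff_smul, uq_coeff]
    simp
  · rw [qExpand_coeff_of_not_dvd p _ h, zero_mul]

theorem qExpand_tLs (hζ : IsPrimitiveRoot ζ p) (f : LaurentSeries K) :
    qExpand K p (tLs p f) = qExpand K (p * p) f + ∑ b ∈ Finset.range p, twist (ζ ^ b) f := by
  rw [tLs_apply, map_add, qExpand_qExpand, sum_twist p hζ]

/-- a series invariant under `q ↦ ζ q` is a series in `q^p` -/
theorem qExpand_uq_of_twist (hζ : IsPrimitiveRoot ζ p) {F : LaurentSeries K} (h : twist ζ F = F) :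
    qExpand K p (uq p F) = F := by
  ext n
  by_cases hn : (p : ℤ) ∣ n
  · obtain ⟨m, rfl⟩ := hn
    rw [qExpand_coeff_mul, uq_coeff]
  · rw [qExpand_coeff_of_not_dvd p _ hn]
    have h1 := congrArg (fun x : LaurentSeries K => x.coeff n) h
    simp only [twist_coeff] at h1
    by_contra h2
    have h3 : ((ζ ^ n : Kˣ) : K) = 1 := by
      have h4 : (((ζ ^ n : Kˣ) : K) - 1) * F.coeff n = 0 := by rw [sub_mul, h1, one_mul, sub_self]
      exact sub_eq_zero.1 ((mul_eq_zero.1 h4).resolve_right (Ne.symm h2))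
    exact hn ((hζ.zpow_eq_one_iff_dvd n).1 (Units.ext h3))

/-- `Π f = f(q^(p²)) ∏_b f(ζ^b q)` -/
def piM (ζ : Kˣ) : LaurentSeries K →* LaurentSeries K where
  toFun f := qExpand K (p * p) f * ∏ b ∈ Finset.range p, twist (ζ ^ b) f
  map_one' := by simp
  map_mul' f g := by
    simp only [map_mul, Finset.prod_mul_distrib]
    ring

theorem piM_apply (ζ : Kˣ) (f : LaurentSeries K) :
    piM p ζ f = qExpand K (p * p) f * ∏ b ∈ Finset.range p, twist (ζ ^ b) f := rfl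

omit [NeZero p] in
theorem twist_qExpand_of_dvd (hζ : IsPrimitiveRoot ζ p) (d : ℕ) [NeZero d] (hd : p ∣ d)
    (f : LaurentSeries K) : twist ζ (qExpand K d f) = qExpand K d f := by
  ext n
  rw [twist_coeff]
  by_cases hn : (d : ℤ) ∣ n
  · rw [zpow_eq_one_of_dvd p hζ ((Int.natCast_dvd_natCast.2 hd).trans hn), Units.val_one, one_mul]
  · rw [qExpand_coeff_of_not_dvd d _ hn, mul_zero]

theorem twist_piM (hζ : IsPrimitiveRoot ζ p) (f : LaurentSeries K) :
    twist ζ (piM p ζ f) = piM p ζ f := by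
  rw [piM_apply, map_mul, twist_qExpand_of_dvd p hζ (p * p) (dvd_mul_right p p), map_prod]
  congr 1
  simp only [twist_twist, ← pow_succ']
  obtain ⟨k, hk⟩ := Nat.exists_eq_succ_of_ne_zero (NeZero.ne p)
  have h1 : ζ ^ (k + 1) = 1 := by rw [← Nat.succ_eq_add_one, ← hk]; exact hζ.pow_eq_one
  rw [hk, Nat.succ_eq_add_one, Finset.prod_range_succ,
    Finset.prod_range_succ' (fun b => twist (ζ ^ b) f), h1, pow_zero]

/-- the formal multiplicative Hecke operator -/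
def tMs (ζ : Kˣ) (f : LaurentSeries K) : LaurentSeries K := uq p (piM p ζ f)

theorem qExpand_tMs (hζ : IsPrimitiveRoot ζ p) (f : LaurentSeries K) :
    qExpand K p (tMs p ζ f) = piM p ζ f := qExpand_uq_of_twist p hζ (twist_piM p hζ f)

theorem tMs_mul (hζ : IsPrimitiveRoot ζ p) (f g : LaurentSeries K) :
    tMs p ζ (f * g) = tMs p ζ f * tMs p ζ g := by
  apply qExpand_injective p
  rw [map_mul, qExpand_tMs p hζ, qExpand_tMs p hζ, qExpand_tMs p hζ, map_mul]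

/-! ### estimates -/

variable {A : ValuationSubring K} {c τ : K} {f ψ : LaurentSeries K}

theorem Le.map_qExpand (d : ℕ) [NeZero d] (h : Le A c f) : Le A c (qExpand K d f) := fun n => by
  by_cases hd : (d : ℤ) ∣ n
  · obtain ⟨m, rfl⟩ := hd
    rw [qExpand_coeff_mul]
    exact h m
  · rw [qExpand_coeff_of_not_dvd d f hd, map_zero]
    exact zero_le

theorem Lt.map_qExpand (d : ℕ) [NeZero d] (h : Lt A c f) : Lt A c (qExpand K d f) := fun n => by
  by_cases hd : (d : ℤ) ∣ n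
  · obtain ⟨m, rfl⟩ := hd
    rw [qExpand_coeff_mul]
    exact h m
  · rw [qExpand_coeff_of_not_dvd d f hd, map_zero]
    exact zero_lt_iff.2 ((A.valuation.ne_zero_iff).2 h.ne_zero)

theorem Le.of_map_qExpand (d : ℕ) [NeZero d] (h : Le A c (qExpand K d f)) : Le A c f := fun n => by
  rw [← qExpand_coeff_mul d f n]
  exact h _

theorem Lt.of_map_qExpand (d : ℕ) [NeZero d] (h : Lt A c (qExpand K d f)) : Lt A c f := fun n => by
  rw [← qExpand_coeff_mul d f n]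
  exact h _

theorem valuation_zpow_of_pow_eq_one {ξ : Kˣ} {d : ℕ} (hd : d ≠ 0) (hξ : ξ ^ d = 1) (n : ℤ) :
    A.valuation ((ξ ^ n : Kˣ) : K) = 1 := by
  have h1 : A.valuation ((ξ ^ n : Kˣ) : K) ^ d = 1 := by
    rw [← map_pow, ← Units.val_pow_eq_pow_val, ← zpow_natCast, ← zpow_mul, mul_comm, zpow_mul,
      zpow_natCast, hξ, one_zpow, Units.val_one, map_one]
  exact (pow_eq_one_iff.1 h1).resolve_right hd

theorem Le.map_twist {ξ : Kˣ} {d : ℕ} (hd : d ≠ 0) (hξ : ξ ^ d = 1) (h : Le A c f) :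
    Le A c (twist ξ f) := fun n => by
  rw [twist_coeff, map_mul, valuation_zpow_of_pow_eq_one hd hξ, one_mul]
  exact h n

theorem Lt.map_twist {ξ : Kˣ} {d : ℕ} (hd : d ≠ 0) (hξ : ξ ^ d = 1) (h : Lt A c f) :
    Lt A c (twist ξ f) := fun n => by
  rw [twist_coeff, map_mul, valuation_zpow_of_pow_eq_one hd hξ, one_mul]
  exact h n

theorem Exp1.map_qExpand (d : ℕ) [NeZero d] (h : Exp1 A τ f ψ) :
    Exp1 A τ (qExpand K d f) (qExpand K d ψ) :=
  h.map (ModularCurve.qExpand K d) (fun c => qExpand_C d c) (fun _ _ hx => hx.map_qExpand d)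
    (fun _ _ hx => hx.map_qExpand d)

theorem Exp1.map_twist {ξ : Kˣ} {d : ℕ} (hd : d ≠ 0) (hξ : ξ ^ d = 1) (h : Exp1 A τ f ψ) :
    Exp1 A τ (twist ξ f) (twist ξ ψ) :=
  h.map (Fermat.Agent.S24.B.twist ξ) (fun c => twist_C ξ c) (fun _ _ hx => hx.map_twist hd hξ)
    (fun _ _ hx => hx.map_twist hd hξ)

theorem Exp1.of_map_qExpand (d : ℕ) [NeZero d] (h : Exp1 A τ (qExpand K d f) (qExpand K d ψ)) :
    Exp1 A τ f ψ := by
  refine ⟨h.1.of_map_qExpand d, Lt.of_map_qExpand d ?_⟩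
  have := h.2
  rwa [map_add, map_sub, map_one, map_mul, qExpand_C]

theorem Exp1.prod (hτ0 : τ ≠ 0) (hτ : A.valuation τ < 1) {ι : Type*} (s : Finset ι)
    (F Ψ : ι → LaurentSeries K) (h : ∀ i ∈ s, Exp1 A τ (F i) (Ψ i)) :
    Exp1 A τ (∏ i ∈ s, F i) (∑ i ∈ s, Ψ i) := by
  classical
  induction s using Finset.induction_on with
  | empty => simpa using exp1_one hτ0
  | insert a s ha ih =>
    rw [Finset.prod_insert ha, Finset.sum_insert ha]
    exact (h a (Finset.mem_insert_self a s)).mul hτ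
      (ih fun i hi => h i (Finset.mem_insert_of_mem hi))

/-- **(H), formal form.** -/
theorem Exp1.map_tMs (hζ : IsPrimitiveRoot ζ p) (hτ : A.valuation τ < 1) (h : Exp1 A τ f ψ) :
    Exp1 A τ (tMs p ζ f) (tLs p ψ) := by
  apply Exp1.of_map_qExpand p
  rw [qExpand_tMs p hζ, qExpand_tLs p hζ, piM_apply]
  refine (h.map_qExpand (p * p)).mul hτ (Exp1.prod h.ne_zero hτ _ _ _ fun b _ => ?_)
  refine h.map_twist (NeZero.ne p) ?_
  rw [← pow_mul, mul_comm, pow_mul, hζ.pow_eq_one, one_pow]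

/-- **(H)**: `u' (q^p) = Π u` and `u = 1 - τ ψ` imply `u' = 1 - τ T^add ψ`. -/
theorem Near1.of_piM (hζ : IsPrimitiveRoot ζ p) (hτ : A.valuation τ < 1) {u u' : LaurentSeries K}
    (hu : qExpand K p u' = piM p ζ u) (h : Near1 A τ u ψ) : Near1 A τ u' (tLs p ψ) := by
  obtain ⟨Nn, D, ψ₁, ψ₂, e, rfl, hN, hD⟩ := h
  refine ⟨tMs p ζ Nn, tMs p ζ D, tLs p ψ₁, tLs p ψ₂, ?_, map_sub _ _ _, hN.map_tMs p hζ hτ,
    hD.map_tMs p hζ hτ⟩
  apply qExpand_injective p
  rw [map_mul, hu, qExpand_tMs p hζ, qExpand_tMs p hζ, ← map_mul, e]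

end Fermat.Agent.S12.FI

end
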