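/-
S12 / FI / Geom (helper119): block (H).
* `lift_rel`      : a subgroup of `M₁ × M₂` stable under the generators is stable under all formal polynomials
* `near1_evU`     : `u = 1 - τ ψ ⟹ s^mul u = 1 - τ s^add ψ`
* `near1_S0`      : `S₀ = s₁^mul(1 - τ j) s₂^mul(1 - τ j_N) = 1 - τ ψ`
-/
import Fermat.Agent.S12.FI.Geom.Formal
import Fermat.Agent.GAL.E.QExp
import Fermat.Agent.S28.IntLaurent

set_option autoImplicit false

noncomputable section

namespace Fermat.Agent.S12.FI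

open ModularCurve AlgebraicCurve Fermat.Agent.S24 Fermat.Agent.S24.B Fermat.Agent.GAL.E
  Fermat.Agent.S15.A
open HahnSeries (C)

/-- a subgroup of `M₁ × M₂` which is stable under the generators is stable under all formal
polynomials -/
theorem lift_rel {X M₁ M₂ : Type*} [AddCommGroup M₁] [AddCommGroup M₂]
    (T₁ : X → Module.End ℤ M₁) (T₂ : X → Module.End ℤ M₂) (R : AddSubgroup (M₁ × M₂))
    (h : ∀ q : X, ∀ x ∈ R, (T₁ q x.1, T₂ q x.2) ∈ R) (t : FreeAlgebra ℤ X) :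
    ∀ x ∈ R, (FreeAlgebra.lift ℤ T₁ t x.1, FreeAlgebra.lift ℤ T₂ t x.2) ∈ R := by
  induction t using FreeAlgebra.induction with
  | grade0 r =>
    intro x hx
    have : (FreeAlgebra.lift ℤ T₁ (algebraMap ℤ _ r) x.1,
        FreeAlgebra.lift ℤ T₂ (algebraMap ℤ _ r) x.2) = r • x := by
      rw [AlgHom.commutes, AlgHom.commutes]
      rfl
    rw [this]
    exact R.zsmul_mem hx r
  | grade1 q =>
    intro x hx
    rw [FreeAlgebra.lift_ι_apply, FreeAlgebra.lift_ι_apply]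
    exact h q x hx
  | mul a b ha hb =>
    intro x hx
    rw [map_mul, map_mul]
    exact ha _ (hb x hx)
  | add a b ha hb =>
    intro x hx
    rw [map_add, map_add]
    exact R.add_mem (ha x hx) (hb x hx)

variable (N : ℕ) [Fact N.Prime] (A : ValuationSubring Kbar) (τ : Kbar)

/-- the relation `u = 1 - τ ψ` as a subgroup -/
def nearRel (hτ0 : τ ≠ 0) (hτ : A.valuation τ < 1) :
    AddSubgroup (Additive (FN N)ˣ × LaurentSeries Kbar) where
  carrier := {x | Near1 A τ (toL N ((Additive.toMul x.1 : (FN N)ˣ) : FN N)) x.2}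
  zero_mem' := by
    show Near1 A τ (toL N ((1 : (FN N)ˣ) : FN N)) 0
    rw [Units.val_one, map_one]
    exact near1_one hτ0
  add_mem' := by
    intro x y hx hy
    show Near1 A τ (toL N ((Additive.toMul x.1 * Additive.toMul y.1 : (FN N)ˣ) : FN N)) (x.2 + y.2)
    rw [Units.val_mul, map_mul]
    exact Near1.mul hτ hx hy
  neg_mem' := by
    intro x hx
    show Near1 A τ (toL N (((Additive.toMul x.1)⁻¹ : (FN N)ˣ) : FN N)) (-x.2)
    rw [Units.val_inv_eq_inv_val, map_inv₀]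
    exact Near1.inv hτ hx

variable {A τ}

theorem near1_tU (hτ : A.valuation τ < 1) (q : Pr N) {u : (FN N)ˣ} {ψ : LaurentSeries Kbar}
    (h : Near1 A τ (toL N (u : FN N)) ψ) :
    Near1 A τ (toL N ((Additive.toMul (tU N q (Additive.ofMul u)) : (FN N)ˣ) : FN N))
      (tLs (q.1 : ℕ) ψ) := by
  have hq : ¬ (q.1 : ℕ) ∣ N := fun hd =>
    q.2 ((Nat.prime_dvd_prime_iff_eq q.1.2 (Fact.out : N.Prime)).1 hd)
  refine Near1.of_piM (q.1 : ℕ) (isPrimitiveRoot_zetaK (q.1 : ℕ)) hτ ?_ h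
  exact qExpand_heckeF N (q.1 : ℕ) q.1.2 hq (u : FN N)

/-- **(H)** -/
theorem near1_evU (hτ0 : τ ≠ 0) (hτ : A.valuation τ < 1) (s : HH N) {u : (FN N)ˣ}
    {ψ : LaurentSeries Kbar} (h : Near1 A τ (toL N (u : FN N)) ψ) :
    Near1 A τ (toL N ((Additive.toMul (evU N s (Additive.ofMul u)) : (FN N)ˣ) : FN N))
      (evLs N s ψ) :=
  lift_rel (tU N) (fun q : Pr N => tLs (K := Kbar) (q.1 : ℕ)) (nearRel N A τ hτ0 hτ)
    (fun q x hx => near1_tU N hτ q hx) s (Additive.ofMul u, ψ) h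

end Fermat.Agent.S12.FI

end
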