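/-
S12 / FI / Geom (helper119): the principal part of `ψ = s₁^add(j) + s₂^add(j_N)` is `ppc N s₁ s₂`.
-/
import Fermat.Agent.S12.FI.Geom.H
import Fermat.Agent.GAL.E.Bound
import Fermat.Agent.S24.B.TExp

set_option autoImplicit false

noncomputable section

namespace Fermat.Agent.S12.FI

open ModularCurve AlgebraicCurve Fermat.Agent.S24 Fermat.Agent.S24.B Fermat.Agent.GAL.E
  Fermat.Agent.S15.A

theorem tpp_apply (q : ℕ) (hq : 0 < q) (c : ℕ →₀ ℤ) (m : ℕ) :
    tpp q c m = (if q ∣ m then c (m / q) else 0) + (q : ℤ) * c (m * q) := by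
  induction c using Finsupp.induction_linear with
  | zero => simp
  | add f g hf hg =>
    rw [map_add, Finsupp.add_apply, hf, hg, Finsupp.add_apply, Finsupp.add_apply]
    split_ifs <;> ring
  | single a z =>
    have e1 : (Finsupp.lmapDomain ℤ ℤ (fun n => n * q) (Finsupp.single a z)) m =
        if q ∣ m then (Finsupp.single a z) (m / q) else 0 := by
      rw [Finsupp.lmapDomain_apply, Finsupp.mapDomain_single, Finsupp.single_apply]
      split_ifs with h1 h2 h2
      · rw [Finsupp.single_apply, if_pos]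
        rw [← h1, Nat.mul_div_cancel _ hq]
      · exact absurd ⟨a, by rw [← h1, mul_comm]⟩ h2
      · rw [Finsupp.single_apply, if_neg]
        intro h3
        exact h1 (by rw [h3, Nat.div_mul_cancel h2])
      · rfl
    have e2 : ((Finsupp.lsum ℤ fun n : ℕ =>
        if q ∣ n then Finsupp.lsingle (n / q) else (0 : ℤ →ₗ[ℤ] (ℕ →₀ ℤ))) (Finsupp.single a z)) m =
        (Finsupp.single a z) (m * q) := by
      rw [Finsupp.lsum_single]
      split_ifs with h1
      · rw [Finsupp.lsingle_apply, Finsupp.single_apply, Finsupp.single_apply]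
        by_cases h2 : a / q = m
        · rw [if_pos h2, if_pos (by rw [← h2, Nat.div_mul_cancel h1])]
        · rw [if_neg h2, if_neg]
          intro h3
          exact h2 (by rw [h3, Nat.mul_div_cancel _ hq])
      · rw [LinearMap.zero_apply, Finsupp.zero_apply, Finsupp.single_apply, if_neg]
        intro h3
        exact h1 ⟨m, by rw [h3, mul_comm]⟩
    show (Finsupp.lmapDomain ℤ ℤ (fun n => n * q) (Finsupp.single a z)) m + (q : ℤ) • ((Finsupp.lsum ℤ fun n : ℕ =>
        if q ∣ n then Finsupp.lsingle (n / q) else (0 : ℤ →ₗ[ℤ] (ℕ →₀ ℤ))) (Finsupp.single a z)) m = _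
    rw [e1, e2, smul_eq_mul]

/-- the relation "`c` is the principal part of `f`" -/
def ppRel : AddSubgroup (LaurentSeries Kbar × (ℕ →₀ ℤ)) where
  carrier := {x | ∀ n : ℕ, 1 ≤ n → x.1.coeff (-(n : ℤ)) = ((x.2 n : ℤ) : Kbar)}
  zero_mem' := fun n _ => by simp
  add_mem' := by
    intro x y hx hy n hn
    show (x.1 + y.1).coeff (-(n : ℤ)) = (((x.2 + y.2) n : ℤ) : Kbar)
    rw [HahnSeries.coeff_add, hx n hn, hy n hn, Finsupp.add_apply, Int.cast_add]
  neg_mem' := by
    intro x hx n hn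
    show (-x.1).coeff (-(n : ℤ)) = (((-x.2) n : ℤ) : Kbar)
    rw [HahnSeries.coeff_neg, hx n hn, Finsupp.neg_apply, Int.cast_neg]

theorem ppRel_tLs (q : ℕ) [NeZero q] (x : LaurentSeries Kbar × (ℕ →₀ ℤ)) (hx : x ∈ ppRel) :
    (tLs q x.1, tpp q x.2) ∈ ppRel := by
  intro n hn
  show (tLs q x.1).coeff (-(n : ℤ)) = ((tpp q x.2 n : ℤ) : Kbar)
  have hq : 0 < q := NeZero.pos q
  rw [tpp_apply q hq, tLs_apply, HahnSeries.coeff_add, HahnSeries.coeff_smul, uq_coeff]
  have h2 : (q : ℤ) * -(n : ℤ) = -((n * q : ℕ) : ℤ) := by push_cast; ring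
  rw [h2, hx (n * q) (Nat.mul_pos hn hq), Int.cast_add, Int.cast_mul, Int.cast_natCast, zsmul_eq_mul,
    Int.cast_natCast]
  congr 1
  · split_ifs with h
    · obtain ⟨m, rfl⟩ := h
      have h3 : -((q * m : ℕ) : ℤ) = (q : ℤ) * (-(m : ℤ)) := by push_cast; ring
      rw [h3, qExpand_coeff_mul, Nat.mul_div_cancel_left _ hq]
      refine hx m ?_
      rcases Nat.eq_zero_or_pos m with rfl | hm
      · simp at hn
      · exact hm
    · rw [qExpand_coeff_of_not_dvd, Int.cast_zero]
      rw [Int.dvd_neg, Int.natCast_dvd_natCast]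
      exact h

theorem coeff_Jser_neg (d : ℕ) [NeZero d] (n : ℕ) (hn : 1 ≤ n) :
    (Jser d).coeff (-(n : ℤ)) = (((Finsupp.single d (1 : ℤ) : ℕ →₀ ℤ) n : ℤ) : Kbar) := by
  rw [Jser_eq_qExpand, Finsupp.single_apply]
  by_cases h : d ∣ n
  · obtain ⟨m, rfl⟩ := h
    have h3 : -((d * m : ℕ) : ℤ) = (d : ℤ) * (-(m : ℤ)) := by push_cast; ring
    rw [h3, qExpand_coeff_mul]
    have hd : 0 < d := NeZero.pos d
    by_cases hm : m = 1
    · subst hm
      rw [if_pos (mul_one d).symm, Int.cast_one]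
      exact QExp.coeff_Jser_one_neg_one
    · rw [if_neg, Int.cast_zero]
      · apply HahnSeries.coeff_eq_zero_of_lt_order
        rw [order_Jser_one]
        have : 1 ≤ m := by
          rcases Nat.eq_zero_or_pos m with rfl | hm'
          · simp at hn
          · exact hm'
        omega
      · intro h4
        apply hm
        have : d * 1 = d * m := by rw [mul_one]; exact h4
        exact (Nat.eq_of_mul_eq_mul_left hd this).symm
  · rw [qExpand_coeff_of_not_dvd, if_neg, Int.cast_zero]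
    · rintro rfl
      exact h dvd_rfl
    · rw [Int.dvd_neg, Int.natCast_dvd_natCast]
      exact h

variable (N : ℕ) [Fact N.Prime]

omit [Fact N.Prime] in
theorem ppRel_evLs (s : HH N) (x : LaurentSeries Kbar × (ℕ →₀ ℤ)) (hx : x ∈ ppRel) :
    (evLs N s x.1, evPP N s x.2) ∈ ppRel :=
  lift_rel (fun q : Pr N => tLs (K := Kbar) (q.1 : ℕ)) (fun q : Pr N => tpp (q.1 : ℕ)) ppRel
    (fun q x hx => ppRel_tLs (q.1 : ℕ) x hx) s x hx

/-- the principal part of `ψ` -/
theorem coeff_psi (s₁ s₂ : HH N) (n : ℕ) (hn : 1 ≤ n) :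
    (psi N s₁ s₂).coeff (-(n : ℤ)) = ((ppc N s₁ s₂ n : ℤ) : Kbar) :=
  ppRel.add_mem (ppRel_evLs N s₁ (Jser 1, Finsupp.single 1 1) (coeff_Jser_neg 1))
    (ppRel_evLs N s₂ (Jser N, Finsupp.single N 1) (coeff_Jser_neg N)) n hn

end Fermat.Agent.S12.FI

end
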