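/-
S12 / FI / Geom (helper119): ASSEMBLY of the contract `GeomStmt` from `GeoStmt` (helper228), (H),
`twoChart` and `core''` (helper130).
-/
import Fermat.Agent.S12.FI.Geom.PP
import Fermat.Agent.S12.FI.Chart.Main
import Fermat.Agent.S15.A.NearIff
import Fermat.Agent.S24.FFBasic

set_option autoImplicit false

noncomputable section

namespace Fermat.Agent.S12.FI

open ModularCurve AlgebraicCurve CuspForm
open Fermat.Agent.S24 Fermat.Agent.S27 Fermat.Agent.S37 Fermat.Agent.S15 Fermat.Agent.S15.A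
open Fermat.Agent.GAL.E
open HahnSeries (C)

theorem le_one_Jser (A : ValuationSubring Kbar) (d : ℕ) [NeZero d] : Le A 1 (Jser d) := by
  intro n
  obtain ⟨m, hm⟩ := exists_int_coeff_Jser d n
  rw [hm, map_one]
  exact (A.valuation_le_one_iff _).2 (intCast_mem A m)

variable (N : ℕ) [Fact N.Prime]

theorem toL_one_sub (τ : Kbar) (d : ℕ) [NeZero d] (hd : d ∣ N) :
    toL N (1 - algebraMap Kbar (FN N) τ * JF N d hd) = 1 - C τ * Jser d := by
  rw [map_sub, map_one, map_mul, toL_algebraMap]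
  rfl

theorem one_sub_ne_zero {τ : Kbar} (hτ : τ ≠ 0) (d : ℕ) [NeZero d] (hd : d ∣ N) :
    1 - algebraMap Kbar (FN N) τ * JF N d hd ≠ 0 := by
  intro h
  have h1 := congrArg (fun y => (toL N y).coeff (-(d : ℤ))) h
  simp only [toL_one_sub, map_zero, HahnSeries.coeff_zero, HahnSeries.coeff_sub, coeff_C_mul] at h1
  rw [coeff_Jser_neg d d (NeZero.pos d), Finsupp.single_eq_same, HahnSeries.coeff_one, if_neg] at h1
  · simp at h1
    exact hτ h1
  · have : (0 : ℤ) < d := by exact_mod_cast NeZero.pos d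
    omega

theorem exp1_one_sub (A : ValuationSubring Kbar) {τ : Kbar} (hτ : τ ≠ 0) (d : ℕ) [NeZero d] :
    Exp1 A τ (1 - C τ * Jser d) (Jser d) := by
  refine ⟨le_one_Jser A d, fun n => ?_⟩
  have e : 1 - C τ * Jser d - 1 + C τ * Jser d = 0 := by ring
  rw [e, HahnSeries.coeff_zero, map_zero]
  exact zero_lt_iff.2 ((A.valuation.ne_zero_iff).2 hτ)

/-- **(H)** for `S₀`. -/
theorem near1_S0 {A : ValuationSubring Kbar} {τ : Kbar} (hτ0 : τ ≠ 0) (hτ : A.valuation τ < 1)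
    (s₁ s₂ : HH N) (u v : (FN N)ˣ) (hu : (u : FN N) = 1 - algebraMap Kbar (FN N) τ * jF N)
    (hv : (v : FN N) = 1 - algebraMap Kbar (FN N) τ * jN N) :
    Near1 A τ (toL N ((S0 N s₁ s₂ u v : (FN N)ˣ) : FN N)) (psi N s₁ s₂) := by
  have h1 : Near1 A τ (toL N (u : FN N)) (Jser 1) := by
    rw [hu]
    have := toL_one_sub N τ 1 (one_dvd N)
    rw [show jF N = JF N 1 (one_dvd N) from rfl, this]
    exact (exp1_one_sub A hτ0 1).near1
  have h2 : Near1 A τ (toL N (v : FN N)) (Jser N) := by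
    rw [hv, show jN N = JF N N dvd_rfl from rfl, toL_one_sub N τ N dvd_rfl]
    exact (exp1_one_sub A hτ0 N).near1
  have h3 := (near1_evU N hτ0 hτ s₁ h1).mul hτ (near1_evU N hτ0 hτ s₂ h2)
  rw [← map_mul, ← Units.val_mul] at h3
  exact h3

theorem geomStmt_of (hGeo : GeoStmt N) : GeomStmt N := by
  intro l hl hlN A hA x hx0 hxI hxD s₁ s₂ hT
  obtain ⟨M, hM, hkill⟩ := hT
  have hN : N.Prime := Fact.out
  have hc1 : 1 < A.valuation (val x (jF N)) := (one_lt_comp_iff hx0).1 hxI.1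
  have hc0 : val x (jF N) ≠ 0 := by
    intro h
    rw [h, map_zero] at hc1
    exact absurd hc1 (not_lt.2 zero_le_one)
  set c := val x (jF N) with hc
  have hτ0 : c⁻¹ ≠ 0 := inv_ne_zero hc0
  have hτ : A.valuation c⁻¹ < 1 := by
    rw [map_inv₀]
    exact inv_lt_one_of_one_lt₀ hc1
  -- the depth hypothesis
  have hdeep : A.valuation c⁻¹ ^ (l - 1) < A.valuation (l : Kbar) := by
    have e0 : ((l : FN N)) = algebraMap Kbar (FN N) (l : Kbar) := (map_natCast _ l).symm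
    have h1 : 0 ≤ x.ord ((l : FN N) * jF N ^ (l - 1)) := by
      rw [e0]
      exact ord_mul_nonneg (ord_algebraMap_nonneg _) (ord_pow_nonneg hx0 _)
    have h2 := (one_lt_comp_iff h1).1 hxD
    rw [e0, val_mul (ord_algebraMap_nonneg _) (ord_pow_nonneg hx0 _), val_algebraMap,
      val_pow hx0, map_mul, map_pow, ← hc] at h2
    rw [map_inv₀, inv_pow]
    have h3 : 0 < A.valuation c ^ (l - 1) := pow_pos (zero_lt_one.trans hc1) _
    rw [inv_lt_iff_one_lt_mul₀ h3]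
    exact h2
  -- the units
  let u : (FN N)ˣ := Units.mk0 _ (one_sub_ne_zero N hτ0 1 (one_dvd N))
  let v : (FN N)ˣ := Units.mk0 _ (one_sub_ne_zero N hτ0 N dvd_rfl)
  obtain ⟨X, P, X', P', Z, hX, hP, hX', hP', hZ, hP1, hP'1, hZ1, hXX⟩ :=
    hGeo l hl hlN A hA x hx0 hxI s₁ s₂ M hM hkill c⁻¹ u v (inv_mul_cancel₀ hc0) rfl rfl
  have hS0 := near1_S0 N hτ0 hτ s₁ s₂ u v rfl rfl
  have hM0 : (M : Kbar) ≠ 0 := Nat.cast_ne_zero.2 hM.ne'
  have hS := hS0.pow M hM0 (valuation_pow_lt_natCast hl hA hdeep)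
  have hμ : A.valuation ((M : Kbar) * c⁻¹) < 1 := by
    rw [map_mul]
    exact (mul_le_of_le_one_left' ((A.valuation_le_one_iff _).2 (natCast_mem A M))).trans_lt hτ
  obtain ⟨Y, hY, -, hYn⟩ := core'' (twoChart N A hN hl hlN hA) hμ hS hX hP hX' hP' hZ hP1 hP'1 hZ1 hXX
  obtain ⟨Y', hY', rfl⟩ := Subring.mem_map.1 hY
  refine ⟨Y', fun w hw => FF.ord_nonneg_of_mem w (hY' w hw), fun n hn => ?_⟩
  have h4 := hYn (-(n : ℤ)) (by omega)
  rw [coeff_psi N s₁ s₂ n hn] at h4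
  exact (ValuationSubring.mem_nonunits_iff A).2 h4

end Fermat.Agent.S12.FI

end
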